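import Fermat.Agent.S40.Defs
import Fermat.Agent.SS.Top35.OldKill
import Fermat.Agent.SS.Top35.SMO

/-!
# S40 / EIGEN : the eigen-subgroup `eigA M p S a ⊆ J₀(M)[p]`

* `smul_mem_eigA`, the action of `GQ` on it, `finite_eigA`;
* `[EIG-NE]` `exists_ne_zero_mem_eigA` : it is non zero as soon as `a` is congruent to the eigenvalues of a normalised
  eigenform of level `M` modulo a maximal ideal containing `p`.
-/

set_option autoImplicit false

noncomputable section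

open AlgebraicCurve ModularCurve CongruenceSubgroup

namespace Fermat.Agent.S40

open Fermat.Agent.GAL Fermat.Agent.GAL.PC Fermat.Agent.SS

local notation "Qbar" => AlgebraicClosure ℚ
local notation "GQ" => (AlgebraicClosure ℚ ≃ₐ[ℚ] AlgebraicClosure ℚ)

variable {M p : ℕ} [NeZero M] {S : Set ℕ} {a : ℕ → ℤ}

theorem smul_mem_eigA (σ : GQ) {y : JZero M} (hy : y ∈ eigA M p S a) : σ • y ∈ eigA M p S a := by
  refine ⟨?_, fun ℓ hℓ => ?_⟩
  · have h := map_nsmul (DistribSMul.toAddMonoidHom (JZero M) σ) p y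
    rw [hy.1, map_zero] at h
    exact h.symm
  · rw [← galHecke M ℓ σ y, hy.2 ℓ hℓ]
    exact map_zsmul (DistribSMul.toAddMonoidHom (JZero M) σ) (a ℓ) y

instance : DistribMulAction GQ (eigA M p S a) where
  smul σ x := ⟨σ • x.1, smul_mem_eigA σ x.2⟩
  one_smul x := Subtype.ext (one_smul GQ x.1)
  mul_smul σ τ x := Subtype.ext (mul_smul σ τ x.1)
  smul_zero σ := Subtype.ext (smul_zero σ)
  smul_add σ x y := Subtype.ext (smul_add σ x.1 y.1)

@[simp] theorem coe_smul_eigA (σ : GQ) (x : eigA M p S a) :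
    ((σ • x : eigA M p S a) : JZero M) = σ • (x : JZero M) := rfl

/-- `[EIG-FIN]` (from `SS.card_torsion_JZero` with `k = 1`: a type of positive `Nat.card` is finite). -/
theorem finite_eigA (hp : p.Prime) : Finite (eigA M p S a) := by
  haveI : Fact p.Prime := ⟨hp⟩
  have h1 := card_torsion_JZero (N := M) p 1
  have : Finite {x : JZero M // p ^ 1 • x = 0} :=
    Nat.finite_of_card_ne_zero (by rw [h1]; exact pow_ne_zero _ hp.ne_zero)
  exact Finite.of_injective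
    (fun y : eigA M p S a =>
      (⟨y.1, by rw [pow_one]; exact y.2.1⟩ : {x : JZero M // p ^ 1 • x = 0}))
    (fun y y' h => Subtype.ext (congrArg (fun z => z.1) h))

/-- **[EIG-NE]**.  Proof = the proof of `GAL.exists_residualGaloisRep_of_interfaces` (`GAL/S29Core.lean`), first half:
`k := integralClosure ℤ ℂ ⧸ 𝔪` (a field of characteristic `p`), `φ := Ideal.Quotient.mk 𝔪`, `GAL.eigenChar hf hp φ` gives
`c : Γ₀(M) → k`, `c ≠ 0`, killing the small elements, with `T_ℓ c = φ(a_ℓ(f)) c`; `GAL.Final.sup M p` gives the Kummer map `κ`.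
For `lam : k →+ ZMod p` put `y_lam := κ (lam ∘ c)`: `p y_lam = 0`, `T_ℓ y_lam = κ (lam ∘ (φ(a_ℓ f) · c)) = κ ((a ℓ) • (lam ∘ c)) = a ℓ • y_lam`
because `φ(a_ℓ f) = (a ℓ : k)` by `hcong`; some `y_lam ≠ 0` because `κ` is injective and `c ≠ 0` (dual separates points). -/
theorem exists_ne_zero_mem_eigA (hp : p.Prime) (f : CuspForm (Gamma0 M) 2)
    (𝔪 : Ideal (integralClosure ℤ ℂ)) (hf : f.IsNormalizedEigenform) (hmax : 𝔪.IsMaximal)
    (hpm : (p : integralClosure ℤ ℂ) ∈ 𝔪) (hS : ∀ ℓ : ℕ, ℓ.Prime → ℓ ∉ S → ¬ ℓ ∣ M)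
    (hcong : ∀ ℓ : ℕ, ℓ.Prime → ℓ ∉ S → ∃ a' : integralClosure ℤ ℂ,
      (a' : ℂ) = ModularFormClass.qCoeff f ℓ ∧ a' - ((a ℓ : ℤ) : integralClosure ℤ ℂ) ∈ 𝔪) :
    ∃ y ∈ eigA M p S a, y ≠ 0 := by
  haveI := hmax
  haveI : Fact p.Prime := ⟨hp⟩
  haveI : NeZero p := ⟨hp.ne_zero⟩
  letI : Field (integralClosure ℤ ℂ ⧸ 𝔪) := Ideal.Quotient.field 𝔪
  let φ : integralClosure ℤ ℂ →+* (integralClosure ℤ ℂ ⧸ 𝔪) := Ideal.Quotient.mk 𝔪
  haveI : CharP (integralClosure ℤ ℂ ⧸ 𝔪) p := (CharP.charP_iff_prime_eq_zero hp).2 (by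
    have h0 : φ (p : integralClosure ℤ ℂ) = 0 := Ideal.Quotient.eq_zero_iff_mem.2 hpm
    rwa [map_natCast] at h0)
  obtain ⟨κ, hκinj, hκT⟩ := Fermat.Agent.GAL.Final.sup M p hp.ne_zero
  obtain ⟨a₀, c, ha, hc0, hcs, hcT⟩ := Fermat.Agent.GAL.eigenChar hf hp φ
  let Y : ((integralClosure ℤ ℂ ⧸ 𝔪) →+ ZMod p) →+ GoodHom M p :=
    { toFun := fun lam => ⟨lam.comp c, fun γ hγ => by
        rw [AddMonoidHom.comp_apply, hcs γ hγ, map_zero]⟩
      map_zero' := rfl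
      map_add' := fun _ _ => rfl }
  have hY : ∀ (lam : (integralClosure ℤ ℂ ⧸ 𝔪) →+ ZMod p) (γ : Gamma0 M),
      (Y lam : Additive (Gamma0 M) →+ ZMod p) (Additive.ofMul γ) = lam (c (Additive.ofMul γ)) :=
    fun _ _ => rfl
  have hex : ∃ lam, Y lam ≠ 0 := by
    by_contra hcon
    push Not at hcon
    apply hc0
    refine AddMonoidHom.ext fun γ => ?_
    let _ : Algebra (ZMod p) (integralClosure ℤ ℂ ⧸ 𝔪) := ZMod.algebra _ p
    rw [AddMonoidHom.zero_apply, ← Module.forall_dual_apply_eq_zero_iff (ZMod p)]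
    intro f
    have h2 := hcon f.toAddMonoidHom
    have h3 := hY f.toAddMonoidHom (Additive.toMul γ)
    rw [h2] at h3
    exact h3.symm
  obtain ⟨lam, hlam⟩ := hex
  refine ⟨κ (Y lam), ⟨?_, fun ℓ hℓS => ?_⟩, fun h0 => hlam (hκinj (by rw [h0, map_zero]))⟩
  · rw [← map_nsmul]
    have h0 : p • Y lam = 0 := by
      apply Subtype.ext
      refine AddMonoidHom.ext fun γ => ?_
      show p • (Y lam : Additive (Gamma0 M) →+ ZMod p) γ = 0
      rw [nsmul_eq_mul, ZMod.natCast_self, zero_mul]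
    rw [h0, map_zero]
  · have hℓM : ¬ (ℓ : ℕ) ∣ M := hS ℓ ℓ.2 hℓS
    haveI : NeZero (ℓ : ℕ) := ⟨ℓ.2.ne_zero⟩
    rw [← map_zsmul]
    refine hκT ℓ hℓM _ _ ?_
    intro γ σ d hd
    obtain ⟨a', ha', hmem⟩ := hcong ℓ ℓ.2 hℓS
    have e1 : a' = a₀ ℓ := Subtype.ext (ha'.trans (ha ℓ hℓM).symm)
    have e2 : φ (a₀ ℓ) = ((a ℓ : ℤ) : integralClosure ℤ ℂ ⧸ 𝔪) := by
      have h0 : φ (a' - ((a ℓ : ℤ) : integralClosure ℤ ℂ)) = 0 :=
        Ideal.Quotient.eq_zero_iff_mem.2 hmem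
      rw [map_sub, map_intCast, sub_eq_zero, e1] at h0
      exact h0
    simp only [hY]
    rw [← map_sum, hcT ℓ hℓM γ σ d hd, e2, ← zsmul_eq_mul, map_zsmul]
    rfl

end Fermat.Agent.S40
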