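import Fermat.Agent.S40.Defs
import Fermat.Agent.SS.Top35.Stein

/-!
# S40 / NEW : service lemmas on the eigen-subgroup for the geometric side

* `poly_apply_of_mem_eigA` : a Hecke polynomial `t` acts on `eigA M p S a` through the integer `θ_a(t) = aeval (cutS S a) t`;
* `isPNew_of_mem_eigA`     : `GoodSys M' p S a` ⟹ every class of `eigA (M' * p) p S a` is `p`-new;
* `exists_eq_poly_apply`   : if `p ∤ θ_a(e)` every `y ∈ eigA` is `f(e) y'` with `y' ∈ eigA` (a multiple of `y`).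
-/

set_option autoImplicit false

noncomputable section

open AlgebraicCurve ModularCurve CongruenceSubgroup

namespace Fermat.Agent.S40

open Fermat.Agent.GAL Fermat.Agent.GAL.PC Fermat.Agent.SS

local notation "Qbar" => AlgebraicClosure ℚ
local notation "GQ" => (AlgebraicClosure ℚ ≃ₐ[ℚ] AlgebraicClosure ℚ)

theorem mem_ptors_of_mem_eigA {M p : ℕ} [NeZero M] {S : Set ℕ} {a : ℕ → ℤ} {y : JZero M}
    (hy : y ∈ eigA M p S a) : y ∈ ptors (JZero M) p := ⟨1, by rw [pow_one]; exact hy.1⟩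

theorem Tp_apply_of_mem_eigA {M p : ℕ} [NeZero M] {S : Set ℕ} {a : ℕ → ℤ}
    (y : ptors (JZero M) p) (hy : (y : JZero M) ∈ eigA M p S a) (ℓ : ℕ) :
    Tp M p S ℓ y = cutS S a ℓ • y := by
  by_cases h : ℓ.Prime ∧ ℓ ∉ S
  · rw [Tp_of_good h.1 h.2, cutS_of_good h.1 h.2]
    apply Subtype.ext
    rw [coe_restrictPtors]
    exact hy.2 ⟨ℓ, h.1⟩ h.2
  · rw [Tp_of_bad h, cutS_of_bad h, zero_smul, LinearMap.zero_apply]

theorem poly_apply_abs {X : Type*} [AddCommGroup X] (f : MvPolynomial ℕ ℤ →+* Module.End ℤ X)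
    (c : ℕ → ℤ) (y : X) (h : ∀ ℓ, f (MvPolynomial.X ℓ) y = c ℓ • y) (t : MvPolynomial ℕ ℤ) :
    f t y = MvPolynomial.aeval c t • y := by
  induction t using MvPolynomial.induction_on with
  | C c =>
    rw [eq_intCast (MvPolynomial.C : ℤ →+* MvPolynomial ℕ ℤ) c, map_intCast, map_intCast,
      Module.End.intCast_apply]
    rfl
  | add P Q hP hQ => rw [map_add, map_add, LinearMap.add_apply, hP, hQ, add_smul]
  | mul_X P ℓ hP =>
    rw [map_mul, map_mul, Module.End.mul_apply, h, map_zsmul, hP, MvPolynomial.aeval_X, smul_smul,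
      mul_comm]

/-- a Hecke polynomial acts on the eigen-subgroup through `θ_a`. -/
theorem poly_apply_of_mem_eigA {M p : ℕ} [NeZero M] {S : Set ℕ} {a : ℕ → ℤ}
    (f : MvPolynomial ℕ ℤ →+* Module.End ℤ (ptors (JZero M) p))
    (hf : ∀ ℓ, f (MvPolynomial.X ℓ) = Tp M p S ℓ) (t : MvPolynomial ℕ ℤ)
    (y : ptors (JZero M) p) (hy : (y : JZero M) ∈ eigA M p S a) :
    f t y = MvPolynomial.aeval (cutS S a) t • y :=
  poly_apply_abs f (cutS S a) y (fun ℓ => by rw [hf]; exact Tp_apply_of_mem_eigA y hy ℓ) t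

theorem eq_zero_of_smul_eq_zero {X : Type*} [AddCommGroup X] {p : ℕ} (hp : p.Prime) {n : ℤ}
    (hn : ¬ (p : ℤ) ∣ n) {x : X} (h1 : p • x = 0) (h2 : n • x = 0) : x = 0 := by
  have hcop : IsCoprime (p : ℤ) n :=
    (Prime.coprime_iff_not_dvd (Nat.prime_iff_prime_int.1 hp)).2 hn
  obtain ⟨u, v, huv⟩ := hcop
  have : (u * (p : ℤ) + v * n) • x = 0 := by
    rw [add_smul, mul_smul, mul_smul, natCast_zsmul, h1, h2, smul_zero, smul_zero, add_zero]
  rwa [huv, one_smul] at this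

/-- the classes of the eigen-subgroup are `p`-new. -/
theorem isPNew_of_mem_eigA {M' p : ℕ} [NeZero M'] [NeZero p] (hp : p.Prime) {S : Finset ℕ}
    {a : ℕ → ℤ} (hsys : GoodSys M' p S a) {y : JZero (M' * p)}
    (hy : y ∈ eigA (M' * p) p (↑S : Set ℕ) a) : IsPNew M' p y := by
  obtain ⟨t₀, ht₀, hθ⟩ := hsys.old
  have hS : ∀ ℓ : ℕ, ℓ.Prime → ℓ ∉ (↑S : Set ℕ) → ¬ ℓ ∣ M' * p * p := by
    intro ℓ hℓ hℓS hd
    apply hℓS
    rcases (Nat.Prime.dvd_mul hℓ).mp hd with h | h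
    · exact hsys.lvl ℓ hℓ h
    · exact hsys.lvl ℓ hℓ (h.mul_left _)
  have hS1 : ∀ ℓ : ℕ, ℓ.Prime → ℓ ∉ (↑S : Set ℕ) → ¬ ℓ ∣ M' * p := fun ℓ hℓ hℓS hd =>
    hℓS (hsys.lvl ℓ hℓ hd)
  have hS2 : ∀ ℓ : ℕ, ℓ.Prime → ℓ ∉ (↑S : Set ℕ) → ¬ ℓ ∣ M' := fun ℓ hℓ hℓS hd =>
    hS1 ℓ hℓ hℓS (hd.mul_right p)
  obtain ⟨f, hf⟩ := exists_ringHom_of_commute (Tp (M' * p) p (↑S : Set ℕ))
    (Tp_comm (galHecke (M' * p)) (es_all (M' * p) p).2 hS)
  obtain ⟨f', hf'⟩ := exists_ringHom_of_commute (Tp M' p (↑S : Set ℕ))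
    (Tp_comm (galHecke M') (es_all M' p).2 hS1)
  have key : ∀ (u : JZero (M' * p) →+ JZero M'), (∀ (σ : GQ) x, u (σ • x) = σ • u x) →
      u y = 0 := by
    intro u hu
    have h1 := map_poly_of_equivariant (es_all (M' * p) p).2 (es_all M' p).2 u hu (↑S : Set ℕ)
      (fun ℓ hℓ hℓS => ⟨hS ℓ hℓ hℓS, hS1 ℓ hℓ hℓS⟩) f hf f' hf' t₀
      ⟨y, mem_ptors_of_mem_eigA hy⟩
    rw [oldKill hp (↑S : Set ℕ) hS2 f' hf' t₀ ht₀, poly_apply_of_mem_eigA f hf t₀ _ hy,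
      map_zsmul] at h1
    have h2 : MvPolynomial.aeval (cutS (↑S : Set ℕ) a) t₀ • u y = 0 := congrArg Subtype.val h1
    refine eq_zero_of_smul_eq_zero hp hθ ?_ h2
    rw [← map_nsmul, hy.1, map_zero]
  exact ⟨hy.1, key _ (pushA_smul M' p), key _ (pushB_smul M' p)⟩

/-- if `p ∤ θ_a(e)` every class of the eigen-subgroup is `f(e) y'` with `y'` a multiple of it. -/
theorem exists_eq_poly_apply {M p : ℕ} [NeZero M] (hp : p.Prime) {S : Set ℕ} {a : ℕ → ℤ}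
    (f : MvPolynomial ℕ ℤ →+* Module.End ℤ (ptors (JZero M) p))
    (hf : ∀ ℓ, f (MvPolynomial.X ℓ) = Tp M p S ℓ) (e : MvPolynomial ℕ ℤ)
    (he : ¬ (p : ℤ) ∣ MvPolynomial.aeval (cutS S a) e)
    (y : ptors (JZero M) p) (hy : (y : JZero M) ∈ eigA M p S a) :
    ∃ n : ℤ, y = f e (n • y) := by
  have hcop : IsCoprime (p : ℤ) (MvPolynomial.aeval (cutS S a) e) :=
    (Prime.coprime_iff_not_dvd (Nat.prime_iff_prime_int.1 hp)).2 he
  obtain ⟨u, v, huv⟩ := hcop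
  refine ⟨v, ?_⟩
  rw [map_zsmul, poly_apply_of_mem_eigA f hf e y hy, smul_smul]
  have hpy : (p : ℤ) • y = 0 := by
    rw [natCast_zsmul]
    exact Subtype.ext hy.1
  have h1 : (u * (p : ℤ) + v * MvPolynomial.aeval (cutS S a) e) • y = y := by
    rw [huv, one_smul]
  rw [add_smul, mul_smul, hpy, smul_zero, zero_add] at h1
  exact h1.symm

end Fermat.Agent.S40
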