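import Fermat.Agent.S36.K0
import Fermat.Agent.S36.Mod.Lz
import Fermat.Agent.GAL.CycloChar

/-!
# S40 / CYCRAM : the cyclotomic character modulo an odd prime `p` is non trivial on the inertia groups at `p`

Proof.  `ζ` a primitive `p`-th root of unity, `lam = 1 - ζ`.  `∏_{i=1}^{p-1} (1 - ζ^i) = p` and `v(1 - ζ^i) = v(1 - ζ)` (each divides the other
in `ℤ[ζ] ⊆ A`; see `CFT/Recip/LocSurj.lean : valuation_one_sub_pow_le, valuation_FF` for the pattern), so `v(lam)^(p-1) = v(p)`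
(`S36.valuation_one_sub_zeta_pow`).
If every `τ ∈ I` had `cycloChar p τ = 1` then `τ ζ = ζ` (`cycloChar_spec`), so `lam` is fixed by `I` and
`S36.exists_zpow_of_inertia_fixed` gives `v(lam) = v(p)^n`, `n ∈ ℤ`; then `v(p)^(n (p-1)) = v(p)`, `v(p) ≠ 0, 1` has infinite order:
`n (p - 1) = 1`, so `p = 2`.
-/

set_option autoImplicit false

namespace Fermat.Agent.S40

open Fermat.Agent.GAL

local notation "Qbar" => AlgebraicClosure ℚ
local notation "GQ" => (AlgebraicClosure ℚ ≃ₐ[ℚ] AlgebraicClosure ℚ)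

/-- **[CYCRAM]** -/
theorem exists_inertia_cycloChar_ne_one {p : ℕ} [NeZero p] (hp : p.Prime) (hp2 : p ≠ 2)
    (A : ValuationSubring Qbar) (hA : A.LiesOverPrime p) :
    ∃ τ ∈ A.inertiaSubgroupIn ℚ, cycloChar p τ ≠ 1 := by
  by_contra hcon
  push Not at hcon
  obtain ⟨ζ, hζ⟩ := HasEnoughRootsOfUnity.exists_primitiveRoot Qbar p
  have hfix : ∀ σ ∈ A.inertiaSubgroupIn ℚ, σ ζ = ζ := by
    intro σ hσ
    have h1 := cycloChar_spec p σ hζ.pow_eq_one
    haveI : Fact (1 < p) := ⟨hp.one_lt⟩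
    rw [hcon σ hσ, Units.val_one, ZMod.val_one, pow_one] at h1
    exact h1
  have hpA : A.valuation ((p : ℕ) : Qbar) < 1 := hA
  have hpos : 0 < A.valuation ((p : ℕ) : Qbar) := by
    rw [Valuation.pos_iff]; exact_mod_cast hp.ne_zero
  have h1 : (1 - ζ) ≠ 0 := sub_ne_zero.2 (hζ.ne_one hp.one_lt).symm
  obtain ⟨n, hn⟩ := S36.exists_zpow_of_inertia_fixed hp hA h1
    (fun σ hσ => by rw [map_sub, map_one, hfix σ hσ])
  have h2 := S36.valuation_one_sub_zeta_pow hp hA hζ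
  rw [hn, ← zpow_natCast, ← zpow_mul] at h2
  have h3 : n * ((p - 1 : ℕ) : ℤ) = 1 := by
    apply zpow_right_injective₀ hpos hpA.ne
    simpa using h2
  have h4 : ((p - 1 : ℕ) : ℤ) ∣ 1 := Dvd.intro_left _ h3
  have h5 : (p - 1 : ℕ) ∣ 1 := by exact_mod_cast h4
  have h6 := Nat.dvd_one.1 h5
  have := hp.two_le
  omega

end Fermat.Agent.S40
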