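import Fermat.Agent.SS.Top35.Push
import Fermat.Agent.S58.ESide
import Fermat.Prelude.Def_FLTPrelim_ModularRep

/-!
# S40 : definitions and THE INTERFACE between TOP-40 and the geometric core

Level `M = M' * p`, `p ∤ M'`, `p` odd.  `A` a valuation ring of `Qbar` over `p`,
`I = A.inertiaSubgroupIn ℚ`, `χ = cycloChar p`.

The interface is in EIGEN-FORM: the geometric side receives a system of eigenvalues `a : ℕ → ℤ` (away from a finite set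
`S` of primes containing the primes dividing `M' p`) which is

* not `p`-old        : some polynomial `t₀` in the `T_ℓ` kills `S₂(Γ₀(M'))` and `θ_a(t₀) ≢ 0 mod p`,
* not Eisenstein     : for every `m > 0` there is `ℓ₀ ∉ S`, `ℓ₀ ≡ 1 mod m`, `a ℓ₀ ≢ ℓ₀ + 1 mod p`,

(`GoodSys M' p S a`) and works in the eigen-subgroup `eigA (M' p) p S a ⊆ J₀(M' p)[p]`.

* `GeoA M' p` : `(τ - 1) y` is toric (`τ' z = χ(τ') z`) for `y` in the eigen-subgroup, `τ, τ' ∈ I`.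
* `GeoB M' p` : (PL_p) a class `x` of the eigen-subgroup which is an extension of the trivial character by a toric class `t` and which
                is "as little ramified as a finite flat group scheme" (`LittleRam`) is toric.

Helper lemmas for the geometric side are in `S40/New.lean` (classes of the eigen-subgroup are `p`-new, `IsPNew`; they are of the
form `e₂ e₁ x'` for any Hecke polynomials `e₁ e₂` with `θ_a(e₁ e₂) ≢ 0`).
-/

set_option autoImplicit false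

noncomputable section

open AlgebraicCurve ModularCurve CongruenceSubgroup

namespace Fermat.Agent.S40

open Fermat.Agent.GAL Fermat.Agent.GAL.PC Fermat.Agent.SS Fermat.Agent.S58

local notation "Qbar" => AlgebraicClosure ℚ
local notation "GQ" => (AlgebraicClosure ℚ ≃ₐ[ℚ] AlgebraicClosure ℚ)

/-- `y ∈ J₀(M' p)[p]` is `p`-new. -/
def IsPNew (M' p : ℕ) [NeZero M'] [NeZero p] (y : JZero (M' * p)) : Prop :=
  p • y = 0 ∧ pushA M' p y = 0 ∧ pushB M' p y = 0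

open Classical in
/-- a system of eigenvalues, put to zero at the `ℓ ∈ S` and at the non-primes (as `heckeT`, `Tp`). -/
def cutS (S : Set ℕ) (a : ℕ → ℤ) (ℓ : ℕ) : ℤ := if ℓ.Prime ∧ ℓ ∉ S then a ℓ else 0

theorem cutS_of_good {S : Set ℕ} {a : ℕ → ℤ} {ℓ : ℕ} (hℓ : ℓ.Prime) (hS : ℓ ∉ S) :
    cutS S a ℓ = a ℓ := if_pos ⟨hℓ, hS⟩

theorem cutS_of_bad {S : Set ℕ} {a : ℕ → ℤ} {ℓ : ℕ} (h : ¬ (ℓ.Prime ∧ ℓ ∉ S)) :
    cutS S a ℓ = 0 := if_neg h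

/-- the eigen-subgroup of `J₀(M)[p]` for the system of eigenvalues `a` away from `S`. -/
def eigA (M p : ℕ) [NeZero M] (S : Set ℕ) (a : ℕ → ℤ) : AddSubgroup (JZero M) where
  carrier := {y | p • y = 0 ∧ ∀ ℓ : Nat.Primes, (ℓ : ℕ) ∉ S → heckeOperatorBar M ℓ y = a ℓ • y}
  zero_mem' := ⟨smul_zero _, fun ℓ _ => by rw [map_zero, smul_zero]⟩
  add_mem' := by
    rintro a b ⟨ha1, ha2⟩ ⟨hb1, hb2⟩
    refine ⟨?_, fun ℓ hℓ => ?_⟩
    · rw [nsmul_add, ha1, hb1, add_zero]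
    · rw [map_add, ha2 ℓ hℓ, hb2 ℓ hℓ, zsmul_add]
  neg_mem' := by
    rintro a ⟨ha1, ha2⟩
    refine ⟨?_, fun ℓ hℓ => ?_⟩
    · rw [neg_nsmul, ha1, neg_zero]
    · rw [map_neg, ha2 ℓ hℓ, zsmul_neg]

theorem mem_eigA {M p : ℕ} [NeZero M] {S : Set ℕ} {a : ℕ → ℤ} {y : JZero M} :
    y ∈ eigA M p S a ↔ p • y = 0 ∧ ∀ ℓ : Nat.Primes, (ℓ : ℕ) ∉ S →
      heckeOperatorBar M ℓ y = a ℓ • y := Iff.rfl

/-- the system of eigenvalues `a` (away from `S`) is neither `p`-old nor Eisenstein modulo `p`. -/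
structure GoodSys (M' p : ℕ) [NeZero M'] (S : Finset ℕ) (a : ℕ → ℤ) : Prop where
  lvl : ∀ ℓ : ℕ, ℓ.Prime → ℓ ∣ M' * p → ℓ ∈ S
  old : ∃ t₀ : MvPolynomial ℕ ℤ, MvPolynomial.aeval (heckeT M' (↑S : Set ℕ)) t₀ = 0 ∧
    ¬ (p : ℤ) ∣ MvPolynomial.aeval (cutS (↑S : Set ℕ) a) t₀
  ne : ∀ m : ℕ, 0 < m → ∃ ℓ₀ : ℕ, ℓ₀.Prime ∧ ℓ₀ ∉ S ∧ ℓ₀ ≡ 1 [MOD m] ∧
    ¬ (p : ℤ) ∣ a ℓ₀ - ((ℓ₀ : ℤ) + 1)

/-- `(E')` : the field of definition `K' = Qbar^(Stab_I x)` of `x` over `K₀ = Qbar^I` is "little ramified":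
every `σ ∈ I` which fixes `ζ_p` and moves `x` moves some integer `b` of `K'` by at most `ζ_p - 1`,
i.e. `σ b - b ∉ (ζ - 1) 𝔪_A`.  (`X` is any set with an action of `GQ`.) -/
def LittleRam (p : ℕ) [NeZero p] (A : ValuationSubring Qbar) {X : Type*} [SMul GQ X] (x : X) :
    Prop :=
  ∀ σ ∈ A.inertiaSubgroupIn ℚ, cycloChar p σ = 1 → σ • x ≠ x →
    ∃ b : Qbar, b ∈ A ∧
      (∀ τ ∈ A.inertiaSubgroupIn ℚ, τ • x = x → τ b = b) ∧
      ∀ ζ : Qbar, ζ ^ p = 1 → ζ ≠ 1 → A.valuation (ζ - 1) ≤ A.valuation (σ b - b)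

/-- inertia at `A` acts on `y` through the cyclotomic character. -/
def ActsChi (p : ℕ) [NeZero p] (A : ValuationSubring Qbar) {X : Type*} [AddMonoid X] [SMul GQ X]
    (y : X) : Prop :=
  ∀ τ ∈ A.inertiaSubgroupIn ℚ, τ • y = (cycloChar p τ : ZMod p).val • y

/-- **(GeoA)** -/
def GeoA (M' p : ℕ) [NeZero M'] [NeZero p] : Prop :=
  ∀ (S : Finset ℕ) (a : ℕ → ℤ), GoodSys M' p S a →
    ∀ A : ValuationSubring Qbar, A.LiesOverPrime p →
      ∀ y ∈ eigA (M' * p) p (↑S : Set ℕ) a, ∀ τ ∈ A.inertiaSubgroupIn ℚ, ActsChi p A (τ • y - y)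

/-- **(GeoB)** = (PL_p). -/
def GeoB (M' p : ℕ) [NeZero M'] [NeZero p] : Prop :=
  ∀ (S : Finset ℕ) (a : ℕ → ℤ), GoodSys M' p S a →
    ∀ A : ValuationSubring Qbar, A.LiesOverPrime p →
      ∀ x ∈ eigA (M' * p) p (↑S : Set ℕ) a, ∀ t ∈ eigA (M' * p) p (↑S : Set ℕ) a, t ≠ 0 →
        ActsChi p A t → (∀ τ ∈ A.inertiaSubgroupIn ℚ, ∃ k : ℕ, τ • x - x = k • t) →
        LittleRam p A x → ActsChi p A x

/-- the finite set of primes which are thrown away: `p`, the primes of bad reduction, the primes dividing the level. -/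
def badS (W : WeierstrassCurve ℤ) (p M : ℕ) : Finset ℕ :=
  insert p (W.Δ.natAbs.primeFactors ∪ M.primeFactors)

theorem notMem_badS_iff {W : WeierstrassCurve ℤ} (hΔ : W.Δ ≠ 0) {p M : ℕ} (hM : M ≠ 0) {ℓ : ℕ}
    (hℓ : ℓ.Prime) : ℓ ∉ badS W p M ↔ W.IsGoodPrimeFor ℓ ∧ ¬ ℓ ∣ M ∧ ℓ ≠ p := by
  rw [badS, Finset.mem_insert, Finset.mem_union, Nat.mem_primeFactors, Nat.mem_primeFactors]
  have h1 : W.IsGoodPrimeFor ℓ ↔ ¬ ℓ ∣ W.Δ.natAbs := by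
    change ¬ ((ℓ : ℤ) ∣ W.Δ) ↔ _
    rw [Int.natCast_dvd]
  have h2 : W.Δ.natAbs ≠ 0 := Int.natAbs_ne_zero.2 hΔ
  rw [h1]
  tauto

/-- the eigenvalues of `W`. -/
def apW (W : WeierstrassCurve ℤ) (ℓ : ℕ) : ℤ := W.apOfModel ℓ

end Fermat.Agent.S40
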