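import Fermat.Agent.S40.Eigen
import Fermat.Agent.S58.TE
import Fermat.Agent.GAL.PC.Uniq

/-!
# S40 / QUAD : the same quadratic relation on `W[p]` and on the eigen-subgroup of `J₀(M)[p]`

Proof.  Apply `S58.core_XD Cheb.preludeSpec hp (badS W p M) (↑(badS W p M)) ..` with `𝓗 = 𝕋 = ℤ`, `ev = id`, `gen ℓ = W.apOfModel ℓ`, `n = 1`,
`J := S58.EQ W × eigA M p ↑(badS W p M) (apW W)` (product action of `GQ`), `X :=` the (finite) set of all `(v, y)` with `p • v = 0`
(`S58.finite_tors`, `finite_eigA`).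
* `hUnr`  : `S58.inertia_good` on the first factor, `(SS.es_all M p).1` on the second;
* `hFrob` : `S58.frobenius_relation_odd` on the first factor; `(SS.es_all M p).2` and `T_ℓ (σ y) = a_ℓ • σ y` (`smul_mem_eigA`) on the second;
* `hStab` : `S58.exists_stab`, `GAL.openStab M p`; take the compositum;
* `hXsup` : `X` contains `(x₀, 0)` with `x₀` of exact order `p` (`S58.exists_addOrderOf_eq`).
(the pattern is `S58.exists_tE` in `S58/TE.lean`.)
This gives `P : GQ → ℤ`, `D : GQ → ℕ`, `c` with `σ x + D σ • σ⁻¹ x = P σ • x` on `X` and `c σ = mk (D σ)`, `IsCyc S c`;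
`IsCyc.unique` + `isCyc_cycTo (ℤ ⧸ span {p ^ 1}) p` identify `D σ mod p` with `cycloChar p σ`; everything is killed by `p`.
-/

set_option autoImplicit false

noncomputable section

open ModularCurve CongruenceSubgroup

namespace Fermat.Agent.S40

open Fermat.Agent.GAL Fermat.Agent.GAL.PC Fermat.Agent.SS Fermat.Agent.S58

local notation "Qbar" => AlgebraicClosure ℚ
local notation "GQ" => (AlgebraicClosure ℚ ≃ₐ[ℚ] AlgebraicClosure ℚ)

/-- multiples of a `p`-torsion element only depend on the multiplier modulo `p`. -/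
theorem nsmul_eq_of_dvd_sub {G : Type*} [AddCommGroup G] {p a b : ℕ} {w : G} (hw : p • w = 0)
    (h : (p : ℤ) ∣ (a : ℤ) - b) : a • w = b • w := by
  obtain ⟨e, he⟩ := h
  have h1 : (a : ℤ) = b + e * p := by linarith
  rw [← natCast_zsmul, h1, add_zsmul, mul_zsmul, natCast_zsmul, natCast_zsmul, hw, smul_zero,
    add_zero]

/-- **[QUAD]** -/
theorem exists_quad (W : WeierstrassCurve ℤ) (hΔ : W.Δ ≠ 0) {p M : ℕ} [NeZero M] [NeZero p]
    (hp : p.Prime) (hp2 : p ≠ 2) :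
    ∃ P : GQ → ℤ,
      (∀ (σ : GQ) (v : EQ W), p • v = 0 →
        σ • v + (cycloChar p σ : ZMod p).val • σ⁻¹ • v = P σ • v) ∧
      (∀ (σ : GQ), ∀ y ∈ eigA M p (↑(badS W p M) : Set ℕ) (apW W),
        σ • y + (cycloChar p σ : ZMod p).val • σ⁻¹ • y = P σ • y) := by
  classical
  have hM0 : M ≠ 0 := NeZero.ne M
  have hodd : ∀ k : ℕ, Odd (p ^ k) := fun k => (hp.odd_of_ne_two hp2).pow
  have hoddp : Odd p := hp.odd_of_ne_two hp2
  obtain ⟨x₀, hx₀⟩ := exists_addOrderOf_eq W hΔ hoddp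
  have hfinE : Finite (eigA M p (↑(badS W p M) : Set ℕ) (apW W)) := finite_eigA hp
  have hgood : ∀ q : ℕ, q.Prime → q ∉ (↑(badS W p M) : Set ℕ) →
      W.IsGoodPrimeFor q ∧ ¬ q ∣ M ∧ q ≠ p := fun q hq h =>
    (notMem_badS_iff hΔ hM0 hq).1 (fun h' => h (Finset.mem_coe.2 h'))
  have hndvd : ∀ q : ℕ, q.Prime → q ∉ (↑(badS W p M) : Set ℕ) → ¬ q ∣ M * p := by
    intro q hq h hd
    obtain ⟨-, h1, h2⟩ := hgood q hq h
    rcases (Nat.Prime.dvd_mul hq).1 hd with hd | hd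
    · exact h1 hd
    · exact h2 ((Nat.prime_dvd_prime_iff_eq hq hp).1 hd)
  obtain ⟨t, c, hpc, -, N, P, D, hc, hD, hXN, -, -, -, -, -⟩ :=
    core_XD Fermat.Agent.Cheb.preludeSpec hp (badS W p M) (↑(badS W p M) : Set ℕ)
      (by simp [badS]) (le_refl _) (𝓗 := ℤ) (𝕋 := ℤ)
      (J := EQ W × eigA M p (↑(badS W p M) : Set ℕ) (apW W))
      (fun ℓ => W.apOfModel ℓ) (RingHom.id ℤ)
      (fun q hq hqU A hA σ hσ x hx => by
        obtain ⟨k, hk⟩ := hx
        obtain ⟨hg, -, hne⟩ := hgood q hq hqU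
        refine Prod.ext ?_ (Subtype.ext ?_)
        · exact inertia_good W hq hg (hodd k)
            (Nat.Coprime.pow_left _ ((Nat.coprime_primes hp hq).2 (Ne.symm hne))) A hA σ hσ x.1
            (congrArg Prod.fst hk)
        · exact (es_all M p).1 q hq (hndvd q hq hqU) A hA σ hσ x.2.1
            ⟨k, congrArg (fun z : EQ W × eigA M p (↑(badS W p M) : Set ℕ) (apW W) => z.2.1) hk⟩)
      (fun ℓ hℓ hℓS A hA σ hσ x hx => by
        obtain ⟨k, hk⟩ := hx
        have hℓS' : ℓ ∉ (↑(badS W p M) : Set ℕ) := fun h => hℓS (Finset.mem_coe.1 h)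
        obtain ⟨hg, -, hne⟩ := hgood ℓ hℓ hℓS'
        refine Prod.ext ?_ (Subtype.ext ?_)
        · have := frobenius_relation_odd W hℓ hg (hodd k)
            (Nat.Coprime.pow_left _ ((Nat.coprime_primes hp hℓ).2 (Ne.symm hne))) A hA σ hσ x.1
            (congrArg Prod.fst hk)
          rw [natCast_zsmul] at this
          exact this
        · have h1 := (es_all M p).2 ℓ hℓ (hndvd ℓ hℓ hℓS') A hA σ hσ x.2.1
            ⟨k, congrArg (fun z : EQ W × eigA M p (↑(badS W p M) : Set ℕ) (apW W) => z.2.1) hk⟩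
          rw [(smul_mem_eigA σ x.2.2).2 ⟨ℓ, hℓ⟩ hℓS'] at h1
          exact h1)
      (fun x _ => by
        obtain ⟨L₁, hL₁, h₁⟩ := exists_stab W x.1
        obtain ⟨L₂, hL₂, h₂⟩ := openStab M p hp.ne_zero x.2.1 x.2.2.1
        refine ⟨L₁ ⊔ L₂, IntermediateField.finiteDimensional_sup L₁ L₂, fun σ hσ => ?_⟩
        refine Prod.ext ?_ (Subtype.ext ?_)
        · exact h₁ σ fun y hy => hσ y ((le_sup_left : L₁ ≤ L₁ ⊔ L₂) hy)
        · exact h₂ σ fun y hy => hσ y ((le_sup_right : L₂ ≤ L₁ ⊔ L₂) hy))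
      1 {x | p • x.1 = 0}
      (by
        have h1 : {x : EQ W × eigA M p (↑(badS W p M) : Set ℕ) (apW W) | p • x.1 = 0} =
            {v : EQ W | p • v = 0} ×ˢ Set.univ := by
          ext x
          simp
        rw [h1]
        exact (finite_tors W hoddp).prod Set.finite_univ)
      (by
        intro x hx
        refine ⟨1, ?_⟩
        rw [pow_one]
        exact Prod.ext hx (Subtype.ext x.2.2.1))
      (by
        intro Q hQ
        have h1 := congrArg Prod.fst (hQ (x₀, 0) (by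
          change p • x₀ = 0
          rw [← hx₀]
          exact addOrderOf_nsmul_eq_zero x₀))
        have h1' : Q • x₀ = 0 := h1
        rw [RingHom.id_apply, Ideal.mem_span_singleton, pow_one]
        have h2 := addOrderOf_dvd_iff_zsmul_eq_zero.2 h1'
        rw [hx₀] at h2
        exact h2)
  -- identification of `D σ` modulo `p`
  have hpR : ((p : ℕ) : ℤ ⧸ Ideal.span {((p : ℤ)) ^ 1}) = 0 := by
    rw [← map_natCast (Ideal.Quotient.mk (Ideal.span {((p : ℤ)) ^ 1})),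
      Ideal.Quotient.eq_zero_iff_mem, Ideal.mem_span_singleton, pow_one]
  have hcyc : c = cycTo (ℤ ⧸ Ideal.span {((p : ℤ)) ^ 1}) p hpR :=
    IsCyc.unique Fermat.Agent.Cheb.preludeSpec hpc.cyc
      (isCyc_cycTo _ p hpR _ (fun ℓ hℓ hd => by
        rw [(Nat.prime_dvd_prime_iff_eq hℓ hp).1 hd]
        simp [badS]))
  have hDp : ∀ σ : GQ, (p : ℤ) ∣ ((D σ : ℕ) : ℤ) - ((cycloChar p σ : ZMod p).val : ℕ) := by
    intro σ
    have h1 := hc σ
    rw [hcyc, cycTo_apply, RingHom.id_apply] at h1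
    have h2 : ZMod.castHom (ringChar.dvd hpR) (ℤ ⧸ Ideal.span {((p : ℤ)) ^ 1})
        (cycloChar p σ : ZMod p) =
        Ideal.Quotient.mk _ ((((cycloChar p σ : ZMod p).val : ℕ) : ℤ)) := by
      rw [ZMod.castHom_apply, ← ZMod.natCast_val, map_natCast]
    rw [h2, eq_comm, Ideal.Quotient.eq, Ideal.mem_span_singleton, pow_one] at h1
    exact h1
  refine ⟨P, fun σ v hv => ?_, fun σ y hy => ?_⟩
  · have h1 := congrArg Prod.fst (hD σ (v, 0) (hXN _ hv))
    have h2 : σ • v + D σ • σ⁻¹ • v = P σ • v := h1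
    have h3 : p • σ⁻¹ • v = 0 := by
      have h := map_nsmul (DistribSMul.toAddMonoidHom (EQ W) σ⁻¹) p v
      rw [hv, map_zero] at h
      exact h.symm
    rw [← h2, nsmul_eq_of_dvd_sub h3 (hDp σ)]
  · have h0 : p • (0 : EQ W) = 0 := nsmul_zero _
    have h1 := congrArg (fun z : EQ W × eigA M p (↑(badS W p M) : Set ℕ) (apW W) => z.2.1)
      (hD σ (0, ⟨y, hy⟩) (hXN _ h0))
    have h2 : σ • y + D σ • σ⁻¹ • y = P σ • y := h1
    have h3 : p • σ⁻¹ • y = 0 := (smul_mem_eigA σ⁻¹ hy).1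
    rw [← h2, nsmul_eq_of_dvd_sub h3 (hDp σ)]

end Fermat.Agent.S40
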