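import Fermat.Agent.S40.Defs
import Fermat.Agent.SS.Top35.OldS

/-!
# S40 / OLDK : the old-killer modulo `p`

If every polynomial `t₀` in the `T_ℓ` (`ℓ ∉ S`) which kills `S₂(Γ₀(M'))` satisfies `θ_a(t₀) ≡ 0 mod p`, then `a mod p` is the reduction
of the system of eigenvalues of a normalised eigenform of level `M'` (Deligne-Serre lifting).

Proof.  `𝕋' := CuspForm.heckeAlgebra M' 2 S`, `ε := aeval (heckeT M' S) : ℤ[X_ℓ] → 𝕋'` is onto (`SS.aeval_heckeT_surjective`).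
`Θ := (Int.castRingHom (ZMod p)).comp (aeval (cutS S a)) : ℤ[X_ℓ] → ZMod p` kills `ker ε` by hypothesis: `Θ = θ' ∘ ε`
(`RingHom.liftOfSurjective`, pattern in `SS.exists_oldKiller_away'`).  `I := ker θ' ≠ ⊤`.
`S49.exists_eigenvector_lift φ hφ I hI` (`φ : 𝕋' → End_ℂ S₂(Γ₀(M'))` the inclusion, `Module.Finite ℤ 𝕋'` by `S22.result`) gives
`μ : 𝕋' →+* integralClosure ℤ ℂ` and a maximal ideal `𝔪'` with `μ(I) ⊆ 𝔪'`.
`SS.exists_eigenform_of_ringHom' S (coe ∘ μ)` gives `f` with `a_ℓ(f) = μ(T_ℓ)`.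
`p ∈ I`, `T_ℓ - a ℓ ∈ I` (`ε (X ℓ - C (a ℓ))`, `cutS_of_good`).
-/

set_option autoImplicit false

noncomputable section

open ModularCurve CongruenceSubgroup ModularFormClass

namespace Fermat.Agent.S40

open Fermat.Agent.GAL Fermat.Agent.GAL.PC Fermat.Agent.SS

/-- **[OLDK]** -/
theorem exists_eigenform_of_forall_dvd {p M' : ℕ} [NeZero M'] (hp : p.Prime) (S : Set ℕ)
    (hS : ∀ ℓ : ℕ, ℓ.Prime → ℓ ∣ M' → ℓ ∈ S) (a : ℕ → ℤ)
    (h : ∀ t₀ : MvPolynomial ℕ ℤ, MvPolynomial.aeval (heckeT M' S) t₀ = 0 →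
      (p : ℤ) ∣ MvPolynomial.aeval (cutS S a) t₀) :
    ∃ (f : CuspForm (Gamma0 M') 2) (𝔪 : Ideal (integralClosure ℤ ℂ)),
      f.IsNormalizedEigenform ∧ 𝔪.IsMaximal ∧ (p : integralClosure ℤ ℂ) ∈ 𝔪 ∧
      ∀ ℓ : ℕ, ℓ.Prime → ℓ ∉ S → ∃ a' : integralClosure ℤ ℂ,
        (a' : ℂ) = qCoeff f ℓ ∧ a' - ((a ℓ : ℤ) : integralClosure ℤ ℂ) ∈ 𝔪 := by
  classical
  haveI : Fact p.Prime := ⟨hp⟩
  have hfin : Module.Finite ℤ (CuspForm.heckeAlgebra M' 2 S) := Fermat.Agent.S22.result M' 2 S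
  let ε : MvPolynomial ℕ ℤ →+* CuspForm.heckeAlgebra M' 2 S :=
    (MvPolynomial.aeval (heckeT M' S) :
      MvPolynomial ℕ ℤ →ₐ[ℤ] CuspForm.heckeAlgebra M' 2 S).toRingHom
  let Θ : MvPolynomial ℕ ℤ →+* ZMod p := (Int.castRingHom (ZMod p)).comp
    (MvPolynomial.aeval (cutS S a) : MvPolynomial ℕ ℤ →ₐ[ℤ] ℤ).toRingHom
  have hε : Function.Surjective ε := aeval_heckeT_surjective S hS
  have hker : RingHom.ker ε ≤ RingHom.ker Θ := fun t ht => by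
    rw [RingHom.mem_ker]
    exact (ZMod.intCast_zmod_eq_zero_iff_dvd _ _).2 (h t ht)
  let θ' : CuspForm.heckeAlgebra M' 2 S →+* ZMod p := ε.liftOfSurjective hε ⟨Θ, hker⟩
  have hθ' : ∀ t, θ' (ε t) = Θ t := fun t =>
    ε.liftOfRightInverse_comp_apply _ (Function.rightInverse_surjInv hε) ⟨Θ, hker⟩ t
  have hI : RingHom.ker θ' ≠ ⊤ := RingHom.ker_ne_top θ'
  let φ : CuspForm.heckeAlgebra M' 2 S →+* Module.End ℂ (CuspForm (Gamma0 M') 2) :=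
    (CuspForm.heckeAlgebra M' 2 S).val.toRingHom
  have hφ : Function.Injective φ := Subtype.val_injective
  obtain ⟨v, μ, 𝔪', -, hmax, -, hμI⟩ :=
    Fermat.Agent.S49.exists_eigenvector_lift φ hφ (RingHom.ker θ') hI
  obtain ⟨f, hf, hfχ⟩ := exists_eigenform_of_ringHom' S
    ((algebraMap (integralClosure ℤ ℂ) ℂ).comp μ)
  refine ⟨f, 𝔪', hf, hmax, ?_, fun ℓ hℓ hℓS => ?_⟩
  · have h1 : μ (p : CuspForm.heckeAlgebra M' 2 S) ∈ 𝔪' := hμI _ (by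
      rw [RingHom.mem_ker, map_natCast]; exact ZMod.natCast_self p)
    rwa [map_natCast] at h1
  · have hℓM : ¬ ℓ ∣ M' := fun hd => hℓS (hS ℓ hℓ hd)
    refine ⟨μ (CuspForm.heckeAlgebra.T hℓ hℓM hℓS), (hfχ ℓ hℓ hℓM hℓS).symm, ?_⟩
    have h1 : ε (MvPolynomial.X ℓ) = CuspForm.heckeAlgebra.T hℓ hℓM hℓS :=
      (MvPolynomial.aeval_X _ ℓ).trans (heckeT_eq hℓ hℓM hℓS)
    have h2 : Θ (MvPolynomial.X ℓ) = ((a ℓ : ℤ) : ZMod p) := by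
      show ((MvPolynomial.aeval (cutS S a) (MvPolynomial.X ℓ : MvPolynomial ℕ ℤ) : ℤ) : ZMod p) = _
      rw [MvPolynomial.aeval_X, cutS_of_good hℓ hℓS]
    have h3 : μ (CuspForm.heckeAlgebra.T hℓ hℓM hℓS -
        ((a ℓ : ℤ) : CuspForm.heckeAlgebra M' 2 S)) ∈ 𝔪' := hμI _ (by
      rw [RingHom.mem_ker, map_sub, ← h1, hθ', h2, map_intCast, sub_self])
    rwa [map_sub, map_intCast] at h3

end Fermat.Agent.S40
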