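import Fermat.Agent.S40.Alg.Main
import Fermat.Agent.S40.Alg.End
import Fermat.Agent.S40.Eigen
import Fermat.Agent.S40.OldKiller
import Fermat.Agent.S40.Quad
import Fermat.Agent.S40.CycRam
import Fermat.Agent.S40.WSide.Spec
import Fermat.Agent.HW.NEMain
import Fermat.Agent.GAL.PC.CycloPow

/-!
# S40 / TOP : `GeoA M' p ∧ GeoB M' p ⟹` S40 at level `M' * p`
-/

set_option autoImplicit false

noncomputable section

open AlgebraicCurve ModularCurve CongruenceSubgroup WeierstrassCurve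

namespace Fermat.Agent.S40

open Fermat.Agent.GAL Fermat.Agent.GAL.PC Fermat.Agent.SS Fermat.Agent.S58

local notation "Qbar" => AlgebraicClosure ℚ
local notation "GQ" => (AlgebraicClosure ℚ ≃ₐ[ℚ] AlgebraicClosure ℚ)

/-- the linear representation attached to an additive action on a `ZMod p`-module. -/
def repOf (p : ℕ) (G X : Type*) [Group G] [AddCommGroup X] [Module (ZMod p) X]
    [DistribMulAction G X] : G →* Module.End (ZMod p) X where
  toFun σ := (DistribSMul.toAddMonoidHom X σ).toZModLinearMap p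
  map_one' := by
    ext x
    exact one_smul G x
  map_mul' σ τ := by
    ext x
    exact mul_smul σ τ x

@[simp] theorem repOf_apply (p : ℕ) (G X : Type*) [Group G] [AddCommGroup X] [Module (ZMod p) X]
    [DistribMulAction G X] (σ : G) (x : X) : repOf p G X σ x = σ • x := rfl

/-- the cyclotomic character with values in the monoid `ZMod p`. -/
def chiP (p : ℕ) [NeZero p] : GQ →* ZMod p := (Units.coeHom (ZMod p)).comp (cycloChar p)

theorem chiP_apply (p : ℕ) [NeZero p] (σ : GQ) : chiP p σ = (cycloChar p σ : ZMod p) := rfl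

theorem zmod_smul_eq_val_nsmul {p : ℕ} [NeZero p] {X : Type*} [AddCommGroup X] [Module (ZMod p) X]
    (c : ZMod p) (x : X) : c • x = c.val • x := by
  conv_lhs => rw [← ZMod.natCast_zmod_val c]
  exact Nat.cast_smul_eq_nsmul (ZMod p) c.val x

/-- `GoodSys` for the eigenvalues of `W`. -/
theorem goodSys_of_not_modular (W : WeierstrassCurve ℤ) (hΔ : W.Δ ≠ 0) {p M' : ℕ} [NeZero M']
    (hp : p.Prime) (hp2 : p ≠ 2) (hirr : W.ModRepIsIrreducible p)
    (hnot : ¬ W.IsResiduallyModularOfLevel p M') :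
    GoodSys M' p (badS W p (M' * p)) (apW W) := by
  have hM : M' * p ≠ 0 := mul_ne_zero (NeZero.ne M') hp.ne_zero
  refine ⟨fun ℓ hℓ hd => ?_, ?_, fun m hm => ?_⟩
  · by_contra hcon
    exact ((notMem_badS_iff hΔ hM hℓ).1 hcon).2.1 hd
  · by_contra hcon
    push Not at hcon
    obtain ⟨f, 𝔪, hf, hmax, hpm, hc⟩ := exists_eigenform_of_forall_dvd hp
      (↑(badS W p (M' * p)) : Set ℕ) (fun ℓ hℓ hd => by
        by_contra hcon'
        exact ((notMem_badS_iff hΔ hM hℓ).1 hcon').2.1 (hd.mul_right p)) (apW W) hcon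
    refine hnot ⟨f, 𝔪, hf, hmax, hpm, fun ℓ hℓ hg hℓM hℓp => hc ℓ hℓ ?_⟩
    have : ℓ ∉ badS W p (M' * p) := (notMem_badS_iff hΔ hM hℓ).2 ⟨hg, fun hd => by
      rcases (Nat.Prime.dvd_mul hℓ).1 hd with h | h
      · exact hℓM h
      · exact hℓp ((Nat.prime_dvd_prime_iff_eq hℓ hp).1 h), hℓp⟩
    exact this
  · obtain ⟨ℓ, hℓ, hℓT, -, -, hmod, hne⟩ :=
      HW.exists_prime_not_eisenstein_model W hΔ hp hp2 hirr m hm (badS W p (M' * p))
    exact ⟨ℓ, hℓ, hℓT, hmod, hne⟩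

/-- the abstract form of TOP-40: `V` (`= W[p]`) and `Y` (`=` the eigen-subgroup) two `𝔽_p[G_ℚ]`-modules. -/
theorem top_abstract {p : ℕ} [Fact p.Prime] (hp2 : p ≠ 2) {V Y : Type*}
    [AddCommGroup V] [Module (ZMod p) V] [DistribMulAction GQ V]
    [AddCommGroup Y] [Module (ZMod p) Y] [DistribMulAction GQ Y]
    (P : GQ → ℤ)
    (hPV : ∀ (σ : GQ) (v : V), σ • v + (cycloChar p σ : ZMod p).val • σ⁻¹ • v = P σ • v)
    (hPY : ∀ (σ : GQ) (y : Y), σ • y + (cycloChar p σ : ZMod p).val • σ⁻¹ • y = P σ • y)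
    (hcard : Nat.card V = p ^ 2)
    (hirr : ∀ N : Submodule (ZMod p) V, (∀ σ : GQ, ∀ v ∈ N, σ • v ∈ N) → N = ⊥ ∨ N = ⊤)
    (hY0 : ∃ y : Y, y ≠ 0) (A : ValuationSubring Qbar)
    (hram : ∃ τ ∈ A.inertiaSubgroupIn ℚ, cycloChar p τ ≠ 1)
    (hA : ∀ y : Y, ∀ τ ∈ A.inertiaSubgroupIn ℚ, ActsChi p A (τ • y - y))
    (hB : ∀ x t : Y, t ≠ 0 → ActsChi p A t →
      (∀ τ ∈ A.inertiaSubgroupIn ℚ, ∃ k : ℕ, τ • x - x = k • t) → LittleRam p A x → ActsChi p A x)
    (hW : ∀ x t : V, t ≠ 0 → ActsChi p A t →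
      (∀ τ ∈ A.inertiaSubgroupIn ℚ, ∃ k : ℕ, τ • x - x = k • t) → LittleRam p A x) : False := by
  have hp : p.Prime := Fact.out
  have hQV : Alg.QuadRel (repOf p GQ V) (fun σ => ((P σ : ℤ) : ZMod p)) (chiP p) := by
    intro σ
    ext v
    have e1 : chiP p σ • (σ⁻¹ • v) = (cycloChar p σ : ZMod p).val • (σ⁻¹ • v) :=
      zmod_smul_eq_val_nsmul _ _
    have e2 : ((P σ : ℤ) : ZMod p) • v = P σ • v := Int.cast_smul_eq_zsmul (ZMod p) _ _
    change σ • v + chiP p σ • (σ⁻¹ • v) = ((P σ : ℤ) : ZMod p) • v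
    rw [e1, e2]
    exact hPV σ v
  have hQY : Alg.QuadRel (repOf p GQ Y) (fun σ => ((P σ : ℤ) : ZMod p)) (chiP p) := by
    intro σ
    ext y
    have e1 : chiP p σ • (σ⁻¹ • y) = (cycloChar p σ : ZMod p).val • (σ⁻¹ • y) :=
      zmod_smul_eq_val_nsmul _ _
    have e2 : ((P σ : ℤ) : ZMod p) • y = P σ • y := Int.cast_smul_eq_zsmul (ZMod p) _ _
    change σ • y + chiP p σ • (σ⁻¹ • y) = ((P σ : ℤ) : ZMod p) • y
    rw [e1, e2]
    exact hPY σ y
  have hfin : Finite V := Nat.finite_of_card_ne_zero (by rw [hcard]; exact pow_ne_zero _ hp.ne_zero)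
  have hdim : Module.finrank (ZMod p) V = 2 := by
    have h1 := Module.natCard_eq_pow_finrank (K := ZMod p) (V := V)
    rw [hcard, Nat.card_zmod] at h1
    exact (Nat.pow_right_injective hp.two_le h1).symm
  have hirr' : ∀ N : Submodule (ZMod p) V, (∀ σ : GQ, ∀ v ∈ N, repOf p GQ V σ v ∈ N) →
      N = ⊥ ∨ N = ⊤ := hirr
  have h2 : (2 : ZMod p) ≠ 0 := by
    intro h0
    have h1 : ((2 : ℕ) : ZMod p) = 0 := by exact_mod_cast h0
    rw [ZMod.natCast_eq_zero_iff] at h1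
    exact hp2 ((Nat.prime_dvd_prime_iff_eq hp Nat.prime_two).1 h1)
  obtain ⟨c₀, hc₀, hc₀χ⟩ := exists_complexConj
  obtain ⟨ι, hιinj, hιeq⟩ := Alg.exists_embedding h2 hQV hQY hdim hirr' hc₀
    (by rw [chiP_apply, hc₀χ p]) hY0
  have hιeq' : ∀ (σ : GQ) (v : V), ι (σ • v) = σ • ι v := hιeq
  obtain ⟨τ₀, hτ₀, hτ₀χ⟩ := hram
  have hchi : ∀ v : V, ActsChi p A (ι v) ↔ ActsChi p A v := by
    intro v
    constructor
    · intro h τ hτ
      apply hιinj
      rw [hιeq', map_nsmul]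
      exact h τ hτ
    · intro h τ hτ
      rw [← hιeq', h τ hτ, map_nsmul]
  refine Alg.endgame hQV hdim hirr' (A.inertiaSubgroupIn ℚ) hτ₀
    (fun h => hτ₀χ (Units.ext h)) ?_ ?_
  · -- (A)
    intro τ hτ τ' hτ' v
    have h := hA (ι v) τ hτ
    rw [← hιeq', ← map_sub, hchi] at h
    rw [repOf_apply, repOf_apply, zmod_smul_eq_val_nsmul]
    exact h τ' hτ'
  · -- (B)
    intro P₁ t₁ ht₁ hχ hPt
    have hact : ActsChi p A t₁ := by
      intro τ' hτ'
      have h1 := hχ τ' hτ'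
      rw [repOf_apply, zmod_smul_eq_val_nsmul] at h1
      exact h1
    have hext : ∀ τ' ∈ A.inertiaSubgroupIn ℚ, ∃ k : ℕ, τ' • P₁ - P₁ = k • t₁ := by
      intro τ' hτ'
      obtain ⟨c, hc⟩ := hPt τ' hτ'
      refine ⟨c.val, ?_⟩
      rw [repOf_apply, zmod_smul_eq_val_nsmul] at hc
      exact hc
    have hfix : ∀ σ : GQ, σ • ι P₁ = ι P₁ ↔ σ • P₁ = P₁ := by
      intro σ
      rw [← hιeq']
      exact hιinj.eq_iff
    have hlrW : LittleRam p A P₁ := hW P₁ t₁ ht₁ hact hext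
    have hlr : LittleRam p A (ι P₁) := by
      intro σ hσ hσχ hσx
      obtain ⟨b, hb, hbfix, hbval⟩ := hlrW σ hσ hσχ (fun h => hσx ((hfix σ).2 h))
      exact ⟨b, hb, fun τ' hτ' hτ'x => hbfix τ' hτ' ((hfix τ').1 hτ'x), hbval⟩
    have h := hB (ι P₁) (ι t₁) (fun h0 => ht₁ (hιinj (by rw [map_zero]; exact h0)))
      ((hchi t₁).2 hact)
      (fun τ' hτ' => by
        obtain ⟨k, hk⟩ := hext τ' hτ'
        exact ⟨k, by rw [← hιeq', ← map_sub, hk, map_nsmul]⟩) hlr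
    rw [hchi] at h
    intro τ hτ
    rw [repOf_apply, zmod_smul_eq_val_nsmul]
    exact h τ hτ

instance instModuleZModEigA {M p : ℕ} [NeZero M] {S : Set ℕ} {a : ℕ → ℤ} :
    Module (ZMod p) (eigA M p S a) :=
  AddCommGroup.zmodModule (n := p) fun y => Subtype.ext y.2.1

/-- **TOP-40 with the E-side as a hypothesis** (`hE`; it is only used for ONE `A ∣ p`).  Consumed by S40 (good reduction at `p`) and
by S44 (Frey curve, multiplicative reduction at `p`). -/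
theorem top40_of_littleRam (W : WeierstrassCurve ℤ) (hΔ : W.Δ ≠ 0) {p M' : ℕ} [NeZero M'] [NeZero p]
    (hp : p.Prime) (hp2 : p ≠ 2) (hirr : W.ModRepIsIrreducible p)
    (hE : ∀ A : ValuationSubring Qbar, A.LiesOverPrime p → ∀ x t : EQ W, p • x = 0 → p • t = 0 →
      t ≠ 0 → ActsChi p A t → (∀ τ ∈ A.inertiaSubgroupIn ℚ, ∃ k : ℕ, τ • x - x = k • t) →
      LittleRam p A x)
    (hGA : GeoA M' p) (hGB : GeoB M' p)
    (hmod : W.IsResiduallyModularOfLevel p (M' * p)) :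
    W.IsResiduallyModularOfLevel p M' := by
  classical
  by_contra hnot
  have : Fact p.Prime := ⟨hp⟩
  have hM : M' * p ≠ 0 := mul_ne_zero (NeZero.ne M') hp.ne_zero
  have : NeZero (M' * p) := ⟨hM⟩
  have hodd : Odd p := hp.eq_two_or_odd'.resolve_left hp2
  have hsys : GoodSys M' p (badS W p (M' * p)) (apW W) :=
    goodSys_of_not_modular W hΔ hp hp2 hirr hnot
  have hVp : ∀ v : Submodule.torsionBy ℤ (EQ W) (p : ℤ), p • (v : EQ W) = 0 := by
    intro v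
    have := v.2
    rwa [Submodule.mem_torsionBy_iff, natCast_zsmul] at this
  -- `Y ≠ 0`
  obtain ⟨f, 𝔪, hf, hmax, hpm, hcong⟩ := hmod
  obtain ⟨y₀, hy₀, hy₀0⟩ := exists_ne_zero_mem_eigA (S := (↑(badS W p (M' * p)) : Set ℕ))
    (a := apW W) hp f 𝔪 hf hmax
    hpm (fun ℓ hℓ hℓS => ((notMem_badS_iff hΔ hM hℓ).1 hℓS).2.1)
    (fun ℓ hℓ hℓS => by
      obtain ⟨h1, h2, h3⟩ := (notMem_badS_iff hΔ hM hℓ).1 hℓS
      exact hcong ℓ hℓ h1 h2 h3)
  obtain ⟨P, hPV, hPY⟩ := exists_quad W hΔ (M := M' * p) hp hp2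
  have hΔQ : (W.map (Int.castRingHom ℚ)).Δ ≠ 0 := by
    rw [map_Δ]; simpa using hΔ
  have hpQ : ((p : ℕ) : Qbar) ≠ 0 := by exact_mod_cast hp.ne_zero
  have hcard : Nat.card (Submodule.torsionBy ℤ (EQ W) (p : ℤ)) = p ^ 2 :=
    HW.card_torsionBy (k := Qbar) (W.map (Int.castRingHom ℚ)) two_ne_zero hΔQ hodd hpQ
  obtain ⟨A, hA⟩ := Fermat.Agent.S54.exists_liesOverPrime hp
  refine top_abstract (p := p) hp2 (V := Submodule.torsionBy ℤ (EQ W) (p : ℤ))
    (Y := eigA (M' * p) p (↑(badS W p (M' * p)) : Set ℕ) (apW W)) P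
    (fun σ v => Subtype.ext (hPV σ v (hVp v))) (fun σ y => Subtype.ext (hPY σ y y.2)) hcard
    (fun N hN => hirr.2 N hN) ⟨⟨y₀, hy₀⟩, fun h => hy₀0 (congrArg Subtype.val h)⟩ A
    (exists_inertia_cycloChar_ne_one hp hp2 A hA) ?_ ?_ ?_
  · intro y τ hτ τ' hτ'
    exact Subtype.ext (hGA _ (apW W) hsys A hA y y.2 τ hτ τ' hτ')
  · intro x t ht hχ hext hlr τ hτ
    refine Subtype.ext (hGB _ (apW W) hsys A hA x x.2 t t.2 (fun h => ht (Subtype.ext h))
      (fun τ' hτ' => congrArg Subtype.val (hχ τ' hτ'))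
      (fun τ' hτ' => by
        obtain ⟨k, hk⟩ := hext τ' hτ'
        exact ⟨k, congrArg Subtype.val hk⟩) ?_ τ hτ)
    intro σ hσ hσχ hσx
    obtain ⟨b, hb, hbfix, hbval⟩ := hlr σ hσ hσχ (fun h => hσx (congrArg Subtype.val h))
    exact ⟨b, hb, fun τ' hτ' hτ'x => hbfix τ' hτ' (Subtype.ext hτ'x), hbval⟩
  · intro x t ht hχ hext σ hσ hσχ hσx
    have hlr := hE A hA (x : EQ W) (t : EQ W) (hVp x) (hVp t)
      (fun h => ht (Subtype.ext h)) (fun τ' hτ' => congrArg Subtype.val (hχ τ' hτ'))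
      (fun τ' hτ' => by
        obtain ⟨k, hk⟩ := hext τ' hτ'
        exact ⟨k, congrArg Subtype.val hk⟩)
    obtain ⟨b, hb, hbfix, hbval⟩ := hlr σ hσ hσχ (fun h => hσx (Subtype.ext h))
    exact ⟨b, hb, fun τ' hτ' hτ'x => hbfix τ' hτ' (congrArg Subtype.val hτ'x), hbval⟩

/-- **TOP-40.** -/
theorem top40 (W : WeierstrassCurve ℤ) (hΔ : W.Δ ≠ 0) {p M' : ℕ} [NeZero M'] [NeZero p]
    (hp : p.Prime) (hp2 : p ≠ 2) (hgood : W.IsGoodPrimeFor p) (hirr : W.ModRepIsIrreducible p)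
    (hGA : GeoA M' p) (hGB : GeoB M' p)
    (hmod : W.IsResiduallyModularOfLevel p (M' * p)) :
    W.IsResiduallyModularOfLevel p M' :=
  top40_of_littleRam W hΔ hp hp2 hirr
    (fun A hA x t hx ht ht0 hχ hext => littleRam_of_good W hp hp2 hgood A hA x t hx ht ht0 hχ hext)
    hGA hGB hmod

end Fermat.Agent.S40
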